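import Fermat.Prelude.Def_WeierstrassCurve_Mlc1RowStatement
import Fermat.Prelude.Def_FLTPrelim_ModularRep
import Fermat.Prelude.Def_FLTPrelim_Modularity

/-!
# S60 wiring (helper54)

`Fermat.Agent.S60.Wiring.isModular_of_rows` derives the S60 conclusion from
* row 45 (S51): mod 3 or mod 5 irreducible,
* row 46 (S52): the 3-5 switch,
* row 53 (S59): modularity lifting at p in {3,5},
* a STRONG Langlands-Tunnell input `hLT` (residual modularity at 3 at a level not divisible by 9,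
  cube-free away from 3).  The frozen S50 is weaker: it allows 9 | M (with an extra
  no-inertia-fixed-3-torsion clause), so a level-lowering-at-3 step is still needed.

Everything here is hypothesis-parametric: no unfinished statement is imported.
-/

set_option autoImplicit false

open WeierstrassCurve

namespace Fermat.Agent.S60.Wiring

/-- exact-conductor-level modularity of the integral model gives `IsModular` of its base change. -/
theorem isModular_of_mlc1 (W : WeierstrassCurve ℤ)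
    (h : Mlc1IsModularModelOfExactConductorLevel W) :
    (W.map (Int.castRingHom ℚ)).IsModular := by
  obtain ⟨N, hN, -, -, hmod⟩ := h
  exact ⟨W, ⟨1, one_smul _ _⟩, N, hN, hmod⟩

/-- If `W'` is modular of a level `N` whose prime divisors are exactly the bad primes of `W'`,
and `a_ℓ(W') ≡ a_ℓ(W) mod p` at common good primes `ℓ ≠ p`, then `W` is residually modular at `p`
of level `N`. -/
theorem isResiduallyModularOfLevel_of_congr (W W' : WeierstrassCurve ℤ) (p : ℕ) (hp : p.Prime)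
    (N : ℕ) (hN : ∀ q : ℕ, q.Prime → (q ∣ N ↔ (q : ℤ) ∣ W'.Δ))
    (hmod : W'.IsModularModelOfLevel N)
    (hcong : ∀ ℓ : ℕ, ℓ.Prime → W.IsGoodPrimeFor ℓ → W'.IsGoodPrimeFor ℓ → ℓ ≠ p →
      (p : ℤ) ∣ (W'.apOfModel ℓ - W.apOfModel ℓ)) :
    W.IsResiduallyModularOfLevel p N := by
  obtain ⟨f, hf, hcoef⟩ := hmod
  obtain ⟨𝔪, h𝔪, hp𝔪⟩ := FLTPrelim.exists_maximalIdeal_natCast_prime_mem hp
  refine ⟨f, 𝔪, hf, h𝔪, hp𝔪, ?_⟩
  intro ℓ hℓ hgood hℓN hℓp
  have hgood' : W'.IsGoodPrimeFor ℓ := fun hdvd => hℓN ((hN ℓ hℓ).2 hdvd)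
  refine ⟨((W'.apOfModel ℓ : ℤ) : integralClosure ℤ ℂ), ?_, ?_⟩
  · rw [hcoef ℓ hℓ hgood' hℓN]
    simp
  · obtain ⟨k, hk⟩ := hcong ℓ hℓ hgood hgood' hℓp
    have : ((W'.apOfModel ℓ : ℤ) : integralClosure ℤ ℂ) - ((W.apOfModel ℓ : ℤ) : integralClosure ℤ ℂ)
        = (p : integralClosure ℤ ℂ) * ((k : ℤ) : integralClosure ℤ ℂ) := by
      rw [← Int.cast_sub, hk]
      push_cast
      rfl
    rw [this]
    exact Ideal.mul_mem_right _ _ hp𝔪

/-- The S60 assembly, parametric in the rows it uses. -/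
theorem isModular_of_rows
    (h51 : ∀ W : WeierstrassCurve ℤ, W.Δ ≠ 0 → W.IsSemistableModel →
      W.ModRepIsIrreducible 3 ∨ W.ModRepIsIrreducible 5)
    (h52 : ∀ W : WeierstrassCurve ℤ, W.Δ ≠ 0 → W.IsSemistableModel → W.ModRepIsIrreducible 5 →
      ∃ W' : WeierstrassCurve ℤ, W'.Δ ≠ 0 ∧ W'.IsSemistableModel ∧ W'.ModRepIsIrreducible 3 ∧
        ∀ ℓ : ℕ, ℓ.Prime → W.IsGoodPrimeFor ℓ → W'.IsGoodPrimeFor ℓ → ℓ ≠ 5 →
          (5 : ℤ) ∣ (W'.apOfModel ℓ - W.apOfModel ℓ))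
    (hLT : ∀ W : WeierstrassCurve ℤ, W.Δ ≠ 0 → W.IsSemistableModel → W.ModRepIsIrreducible 3 →
      ∃ M : ℕ, 0 < M ∧ W.IsResiduallyModularOfLevel 3 M ∧ ¬ 3 ^ 2 ∣ M ∧
        ∀ q : ℕ, q.Prime → q ≠ 3 → ¬ q ^ 3 ∣ M)
    (h59 : ∀ p : ℕ, p = 3 ∨ p = 5 → ∀ W : WeierstrassCurve ℤ, W.Δ ≠ 0 → W.IsSemistableModel →
      W.ModRepIsIrreducible p → ∀ (M₀ : ℕ) [NeZero M₀], W.IsResiduallyModularOfLevel p M₀ →
      ¬ p ^ 2 ∣ M₀ → (∀ q : ℕ, q.Prime → q ≠ p → ¬ q ^ 3 ∣ M₀) →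
      Mlc1IsModularModelOfExactConductorLevel W)
    (W : WeierstrassCurve ℤ) (hΔ : W.Δ ≠ 0) (hW : W.IsSemistableModel) :
    (W.map (Int.castRingHom ℚ)).IsModular := by
  -- modularity when the mod 3 representation is irreducible
  have h3 : ∀ V : WeierstrassCurve ℤ, V.Δ ≠ 0 → V.IsSemistableModel → V.ModRepIsIrreducible 3 →
      Mlc1IsModularModelOfExactConductorLevel V := by
    intro V hVΔ hV hirr
    obtain ⟨M, hM, hres, h9, hcube⟩ := hLT V hVΔ hV hirr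
    have hMne : NeZero M := ⟨hM.ne'⟩
    exact h59 3 (Or.inl rfl) V hVΔ hV hirr M hres h9 hcube
  apply isModular_of_mlc1
  rcases h51 W hΔ hW with hirr3 | hirr5
  · exact h3 W hΔ hW hirr3
  · obtain ⟨W', hΔ', hW', hirr', hcong⟩ := h52 W hΔ hW hirr5
    obtain ⟨N, hN, hsq, hNbad, hmod⟩ := h3 W' hΔ' hW' hirr'
    have hres : W.IsResiduallyModularOfLevel 5 N :=
      isResiduallyModularOfLevel_of_congr W W' 5 Nat.prime_five N hNbad hmod
        (fun ℓ hℓ h1 h2 h3 => by exact_mod_cast hcong ℓ hℓ h1 h2 h3)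
    have hNne : NeZero N := ⟨hN.ne'⟩
    refine h59 5 (Or.inr rfl) W hΔ hW hirr5 N hres ?_ ?_
    · intro h25
      have h55 : (5 : ℕ) * 5 ∣ N := by simpa [pow_two] using h25
      have h1 : (5 : ℕ) = 1 := Nat.isUnit_iff.mp (hsq 5 h55)
      omega
    · intro q hq _ hq3
      have hqq : q * q ∣ N := Dvd.dvd.trans ⟨q, by ring⟩ hq3
      exact hq.one_lt.ne' (Nat.isUnit_iff.mp (hsq q hqq))

end Fermat.Agent.S60.Wiring
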